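import Fermat.Agent.H84.MWDiv.Interfaces
import Fermat.Agent.H19.RH.HurwitzFinal
import Fermat.Agent.H19.RH.RamIdx
import Fermat.Agent.H17.ESD.PlaceCalc
import Fermat.Agent.H16.FFBasic

/-!
# P-MW / MW-A1-CANDEG (helper17): the canonical divisor `div (dy / y)` has degree `2 g - 2`

`canonicalDegree : Fermat.Agent.H84.MWDiv.CanonicalDegreeStatement`: for `K` algebraically closed
of characteristic `0`, a Riemann package of genus `g` on `F / K` and `y ∈ F` transcendental with
`[F : K(y)] < ∞`, the divisor `W` with `W v = -1` on the support of `y` and `W v = e_v - 1`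
elsewhere has degree `2 g - 2`.

Proof: Riemann-Hurwitz (`Fermat.Agent.H19.hurwitzStatement`) gives
`∑ (e_v - 1) = 2 g - 2 + 2 n`, `n = [F : K(y)]`, and the fundamental identity gives
`∑_{zeros} e_v = n = ∑_{poles} e_v`.
-/

set_option autoImplicit false
set_option synthInstance.maxHeartbeats 400000
set_option maxHeartbeats 400000

noncomputable section

open AlgebraicCurve IntermediateField

namespace Fermat.Agent.H17.MWDiv

open Fermat.Agent.H27.ESD Fermat.Agent.H19 Fermat.Agent.H17.ESD

section

variable {K F : Type} [Field K] [Field F] [Algebra K F]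

/-- the function `v ↦ e_v - 1` off the support of `y`, `-1` on it -/
def canW (y : F) (v : Place K F) : ℤ :=
  if v.ord y ≠ 0 then -1 else (ramIdx y v : ℤ) - 1

/-- the zero part `v ↦ ord_v y` on the zeros -/
def canZ (y : F) (v : Place K F) : ℤ := if 0 < v.ord y then v.ord y else 0

/-- the pole part `v ↦ - ord_v y` on the poles -/
def canP (y : F) (v : Place K F) : ℤ := if v.ord y < 0 then -(v.ord y) else 0

theorem canW_eq (y : F) (v : Place K F) :
    canW y v = ((ramIdx y v : ℤ) - 1) - canZ y v - canP y v := by
  unfold canW canZ canP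
  rcases lt_trichotomy (v.ord y) 0 with h | h | h
  · rw [if_pos h.ne, if_neg (by omega), if_pos h, rh_ramIdx_of_ord_neg' v h]
    ring
  · rw [if_neg (by simp [h]), if_neg (by omega), if_neg (by omega)]
    ring
  · have h' : 0 < v.ord (y - algebraMap K F 0) := by rwa [map_zero, sub_zero]
    have e := rh_ramIdx_of_ord_sub_pos' v h'
    rw [map_zero, sub_zero] at e
    rw [if_pos h.ne', if_pos h, if_neg (by omega), e]
    ring

theorem support_canZ (y : F) : Function.support (canZ (K := K) y) ⊆ {v | 0 < v.ord y} := by
  intro v hv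
  by_contra h
  exact hv (if_neg h)

theorem support_canP (y : F) : Function.support (canP (K := K) y) ⊆ {v | v.ord y < 0} := by
  intro v hv
  by_contra h
  exact hv (if_neg h)

theorem finsum_canZ (y : F) :
    ∑ᶠ v : Place K F, canZ y v = ∑ᶠ v ∈ {v : Place K F | 0 < v.ord y}, v.ord y := by
  rw [finsum_mem_def]
  refine finsum_congr fun v => ?_
  unfold canZ
  by_cases h : 0 < v.ord y
  · rw [if_pos h, Set.indicator_of_mem (by exact h)]
  · rw [if_neg h, Set.indicator_of_notMem (by exact h)]

theorem finsum_canP (y : F) :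
    ∑ᶠ v : Place K F, canP y v = ∑ᶠ v ∈ {v : Place K F | v.ord y < 0}, (-(v.ord y)) := by
  rw [finsum_mem_def]
  refine finsum_congr fun v => ?_
  unfold canP
  by_cases h : v.ord y < 0
  · rw [if_pos h, Set.indicator_of_mem (by exact h)]
  · rw [if_neg h, Set.indicator_of_notMem (by exact h)]

end

/-- **MW-A1-CANDEG.** -/
theorem canonicalDegree : Fermat.Agent.H84.MWDiv.CanonicalDegreeStatement := by
  intro K F _ _ _ _ _ g hR y hy hfin
  classical
  haveI := hfin
  haveI : CharZero ↥K⟮y⟯ := charZero_of_injective_algebraMap (algebraMap K _).injective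
  have hsep : Algebra.IsSeparable ↥K⟮y⟯ F := inferInstance
  obtain ⟨hSfin, -, hHeq⟩ := Fermat.Agent.H19.hurwitzStatement K F y hy hfin hsep g hR
  have hpos : ∀ v : Place K F, 0 < ramIdx y v := fun v => rh_ramIdx_pos v (hR.deg_one v) hy
  have hH := hHeq (fun v => by
    have := (hpos v).ne'
    exact_mod_cast this)
  obtain ⟨hZfin, hZ⟩ := Fermat.Agent.H16.ffb_fundamentalIdentity_zeros y hy
  obtain ⟨hPfin, hP⟩ := pc_poles y hy
  -- finiteness of the supports
  have hsA : (Function.support fun v : Place K F => ((ramIdx y v : ℤ) - 1)).Finite := by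
    refine hSfin.subset ?_
    intro v hv
    simp only [Function.mem_support, ne_eq] at hv
    simp only [Set.mem_setOf_eq]
    have := hpos v
    omega
  have hsZ : (Function.support (canZ (K := K) y)).Finite := hZfin.subset (support_canZ y)
  have hsP : (Function.support (canP (K := K) y)).Finite := hPfin.subset (support_canP y)
  have hfun : canW (K := K) y = fun v => (((ramIdx y v : ℤ) - 1) - canZ y v) - canP y v :=
    funext fun v => canW_eq y v
  have hsAZ : (Function.support fun v : Place K F =>
      ((ramIdx y v : ℤ) - 1) - canZ y v).Finite := by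
    refine (hsA.union hsZ).subset ?_
    intro v hv
    simp only [Function.mem_support, ne_eq, Set.mem_union] at hv ⊢
    by_contra hcon
    push_neg at hcon
    apply hv
    rw [hcon.1, hcon.2, sub_zero]
  have hsW : (Function.support (canW (K := K) y)).Finite := by
    rw [hfun]
    refine (hsAZ.union hsP).subset ?_
    intro v hv
    simp only [Function.mem_support, ne_eq, Set.mem_union] at hv ⊢
    by_contra hcon
    push_neg at hcon
    apply hv
    rw [hcon.1, hcon.2, sub_zero]
  refine ⟨Finsupp.ofSupportFinite (canW y) hsW, ?_, ?_, ?_⟩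
  · intro v hv
    rw [Finsupp.ofSupportFinite_coe]
    unfold canW
    rw [if_pos hv]
  · intro v hv
    rw [Finsupp.ofSupportFinite_coe]
    unfold canW
    rw [if_neg (by simp [hv])]
  · rw [Fermat.Agent.H16.ffb_degree_eq_sum hR.deg_one]
    have hsum : ∑ v ∈ (Finsupp.ofSupportFinite (canW y) hsW).support,
        (Finsupp.ofSupportFinite (canW y) hsW) v = ∑ᶠ v : Place K F, canW y v := by
      rw [finsum_eq_sum_of_support_subset (canW y) (s := (Finsupp.ofSupportFinite (canW y) hsW).support)]
      · rfl
      · intro v hv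
        rw [Finset.mem_coe, Finsupp.mem_support_iff, Finsupp.ofSupportFinite_coe]
        exact hv
    rw [hsum, hfun, finsum_sub_distrib hsAZ hsP, finsum_sub_distrib hsA hsZ, hH, finsum_canZ,
      finsum_canP, hZ, hP]
    ring

end Fermat.Agent.H17.MWDiv

end
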